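import Mathlib

set_option autoImplicit false

open IsLocalRing RingTheory.Sequence

namespace Fermat.Agent.S57

/-- the maximal ideal is generated by a weakly regular sequence of length `n` -/
def RegGen (B : Type) [CommRing B] [IsLocalRing B] (n : ℕ) : Prop :=
  ∃ xs : List B, xs.length = n ∧ IsWeaklyRegular B xs ∧ Ideal.ofList xs = maximalIdeal B

theorem regGen_dvr (𝒪 : Type) [CommRing 𝒪] [IsDomain 𝒪] [IsDiscreteValuationRing 𝒪] :
    RegGen 𝒪 1 := by
  obtain ⟨ϖ, hϖ⟩ := IsDiscreteValuationRing.exists_irreducible 𝒪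
  refine ⟨[ϖ], rfl, ?_, ?_⟩
  · rw [isWeaklyRegular_singleton_iff]
    exact IsSMulRegular.of_ne_zero hϖ.ne_zero
  · rw [Ideal.ofList_singleton, hϖ.maximalIdeal_eq]

theorem RegGen.of_ringEquiv {B B' : Type} [CommRing B] [IsLocalRing B] [CommRing B']
    [IsLocalRing B'] (e : B ≃+* B') {n : ℕ} (h : RegGen B n) : RegGen B' n := by
  obtain ⟨xs, hlen, hreg, hgen⟩ := h
  refine ⟨xs.map e, by simpa using hlen, ?_, ?_⟩
  · refine (AddEquiv.isWeaklyRegular_congr (e := e.toAddEquiv) ?_).mp hreg
    refine List.forall₂_map_right_iff.mpr (List.forall₂_same.mpr fun r _ x => ?_)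
    simp
  · have := Ideal.map_ofList (e : B →+* B') xs
    rw [hgen] at this
    rw [← map_ringEquiv_maximalIdeal e]
    exact this.symm

section
variable {S : Type} [CommRing S]

noncomputable def quotXEquiv :
    QuotSMulTop (PowerSeries.X : PowerSeries S) (PowerSeries S) ≃ₗ[S] S :=
  (Submodule.Quotient.restrictScalarsEquiv S _).symm ≪≫ₗ
    (Submodule.quotEquivOfEq _ (LinearMap.ker (PowerSeries.coeff (R := S) 0)) (by
      ext f
      simp only [Submodule.restrictScalars_mem, LinearMap.mem_ker]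
      rw [Submodule.mem_smul_pointwise_iff_exists]
      constructor
      · rintro ⟨g, -, rfl⟩
        simp
      · intro hf
        obtain ⟨g, rfl⟩ := PowerSeries.X_dvd_iff.mpr (by simpa using hf)
        exact ⟨g, trivial, rfl⟩)) ≪≫ₗ
    LinearMap.quotKerEquivOfSurjective (PowerSeries.coeff (R := S) 0)
      (fun a => ⟨PowerSeries.C a, by simp⟩)

theorem maximalIdeal_powerSeries [IsLocalRing S] :
    Ideal.span {(PowerSeries.X : PowerSeries S)} ⊔
      (maximalIdeal S).map (algebraMap S (PowerSeries S)) = maximalIdeal (PowerSeries S) := by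
  apply le_antisymm
  · rw [sup_le_iff, Ideal.span_singleton_le_iff_mem, Ideal.map_le_iff_le_comap]
    refine ⟨?_, ?_⟩
    · rw [mem_maximalIdeal, mem_nonunits_iff, PowerSeries.isUnit_iff_constantCoeff]
      simp
    · intro a ha
      rw [Ideal.mem_comap, mem_maximalIdeal, mem_nonunits_iff,
        PowerSeries.isUnit_iff_constantCoeff]
      simpa using ha
  · intro f hf
    rw [mem_maximalIdeal, mem_nonunits_iff, PowerSeries.isUnit_iff_constantCoeff] at hf
    have h1 : PowerSeries.X ∣ f - PowerSeries.C (PowerSeries.constantCoeff f) := by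
      rw [PowerSeries.X_dvd_iff]; simp
    have h2 : f = (f - PowerSeries.C (PowerSeries.constantCoeff f)) +
        algebraMap S (PowerSeries S) (PowerSeries.constantCoeff f) := by
      simp
    rw [h2]
    exact Ideal.add_mem _ (Ideal.mem_sup_left (Ideal.mem_span_singleton.mpr h1))
      (Ideal.mem_sup_right (Ideal.mem_map_of_mem _ hf))

end

theorem RegGen.powerSeries {S : Type} [CommRing S] [IsLocalRing S] {n : ℕ} (h : RegGen S n) :
    RegGen (PowerSeries S) (n + 1) := by
  obtain ⟨xs, hlen, hreg, hgen⟩ := h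
  refine ⟨PowerSeries.X :: xs.map (algebraMap S (PowerSeries S)), by simpa using hlen, ?_, ?_⟩
  · rw [isWeaklyRegular_cons_iff]
    refine ⟨?_, ?_⟩
    · intro a b hab
      exact PowerSeries.X_mul_cancel hab
    · rw [isWeaklyRegular_map_algebraMap_iff]
      exact (quotXEquiv.isWeaklyRegular_congr xs).mpr hreg
  · rw [Ideal.ofList_cons, ← Ideal.map_ofList, hgen, maximalIdeal_powerSeries]

theorem regGen_mvPowerSeries (𝒪 : Type) [CommRing 𝒪] [IsDomain 𝒪] [IsDiscreteValuationRing 𝒪]
    (r : ℕ) : RegGen (MvPowerSeries (Fin r) 𝒪) (r + 1) := by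
  induction r with
  | zero => exact (regGen_dvr 𝒪).of_ringEquiv (MvPowerSeries.isEmptyEquiv (Fin 0) 𝒪).symm.toRingEquiv
  | succ r ih => exact ih.powerSeries.of_ringEquiv (MvPowerSeries.finSuccEquiv 𝒪 r).symm.toRingEquiv

end Fermat.Agent.S57
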