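import Fermat.Agent.S57.Homological
import Fermat.Agent.S57.RegSeq

set_option autoImplicit false
set_option linter.style.haveILetI false

open IsLocalRing RingTheory.Sequence

namespace Fermat.Agent.S57

theorem isArtinian_of_torsion {A : Type} [CommRing A] [IsLocalRing A]
    (L : Type) [AddCommGroup L] [Module A L] [Module.Finite A L]
    (h : ∀ a ∈ maximalIdeal A, ∀ x : L, a • x = 0) : IsArtinian A L := by
  have hL : Module.IsTorsionBySet A L (maximalIdeal A : Set A) := by
    intro x a
    exact h a.1 a.2 x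
  letI := hL.module
  letI : Field (A ⧸ maximalIdeal A) := Ideal.Quotient.field _
  haveI : Module.Finite (A ⧸ maximalIdeal A) L := Module.Finite.of_restrictScalars_finite A _ _
  haveI : IsArtinian (A ⧸ maximalIdeal A) L := inferInstance
  exact isArtinian_of_surjective_algebraMap (R := A ⧸ maximalIdeal A) Ideal.Quotient.mk_surjective

theorem free_of_phi_basis {A B : Type} [CommRing A] [IsLocalRing A] [CommRing B] [IsLocalRing B]
    [IsNoetherianRing B] (φ : A →+* B) (hφ : ∀ a ∈ maximalIdeal A, φ a ∈ maximalIdeal B) {n : ℕ}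
    (hA : RegGen A n) (hB : RegGen B n) (N : Type) [AddCommGroup N] [Module B N] {d : ℕ}
    (b : Fin d → N) (hspan : ∀ x : N, ∃ c : Fin d → A, x = ∑ i, φ (c i) • b i)
    (hrel : ∀ c : Fin d → A, ∑ i, φ (c i) • b i = 0 ↔ ∀ i, c i = 0) : Module.Free B N := by
  classical
  obtain ⟨xsA, hlenA, hregA, hgenA⟩ := hA
  obtain ⟨xsB, hlenB, hregB, hgenB⟩ := hB
  have hregB' : IsRegular B xsB := by
    refine IsRegular.of_isWeaklyRegular_of_mem_maximalIdeal B ?_ hregB
    intro x hx
    rw [← hgenB]
    exact Ideal.subset_span hx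
  haveI : Module.Finite B N := by
    refine ⟨⟨Finset.univ.image b, ?_⟩⟩
    rw [eq_top_iff]
    intro x _
    obtain ⟨c, rfl⟩ := hspan x
    refine Submodule.sum_mem _ fun i _ => Submodule.smul_mem _ _ (Submodule.subset_span ?_)
    simp
  -- the additive equivalence
  let f : (Fin d → A) →+ N :=
    { toFun := fun c => ∑ i, φ (c i) • b i
      map_zero' := by simp
      map_add' := fun c c' => by simp [add_smul, Finset.sum_add_distrib] }
  have hf_inj : Function.Injective f := by
    rw [injective_iff_map_eq_zero]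
    intro c hc
    funext i
    exact (hrel c).mp hc i
  have hf_surj : Function.Surjective f := fun x => by
    obtain ⟨c, rfl⟩ := hspan x
    exact ⟨c, rfl⟩
  let e : (Fin d → A) ≃+ N := AddEquiv.ofBijective f ⟨hf_inj, hf_surj⟩
  have he : ∀ (a : A) (c : Fin d → A), e (a • c) = φ a • e c := by
    intro a c
    show ∑ i, φ ((a • c) i) • b i = φ a • ∑ i, φ (c i) • b i
    simp [Finset.smul_sum, mul_smul]
  have hreg1 : IsWeaklyRegular (Fin d → A) xsA :=
    ((TensorProduct.lid A (Fin d → A)).isWeaklyRegular_congr xsA).mp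
      (hregA.isWeaklyRegular_rTensor (M₂ := Fin d → A))
  have hreg2 : IsWeaklyRegular N (xsA.map φ) := by
    refine (AddEquiv.isWeaklyRegular_congr (e := e) ?_).mp hreg1
    exact List.forall₂_map_right_iff.mpr (List.forall₂_same.mpr fun r _ x => he r x)
  have hmem : ∀ y ∈ xsA.map φ, y ∈ maximalIdeal B := by
    intro y hy
    obtain ⟨a, ha, rfl⟩ := List.mem_map.mp hy
    apply hφ
    rw [← hgenA]
    exact Ideal.subset_span ha
  refine free_of_isWeaklyRegular xsB hregB' hgenB N (xsA.map φ) hreg2 hmem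
    (by simp [hlenA, hlenB]) ?_
  rw [isFiniteLength_iff_isNoetherian_isArtinian]
  refine ⟨inferInstance, ?_⟩
  letI : Algebra A B := φ.toAlgebra
  letI : Module A N := Module.compHom N φ
  haveI : IsScalarTower A B N := ⟨fun a b x => by
    show (φ a * b) • x = φ a • (b • x)
    rw [mul_smul]⟩
  have hsm : ∀ (a : A) (x : N), a • x = φ a • x := fun _ _ => rfl
  haveI : Module.Finite A N := by
    refine ⟨⟨Finset.univ.image b, ?_⟩⟩
    rw [eq_top_iff]
    intro x _
    obtain ⟨c, rfl⟩ := hspan x
    refine Submodule.sum_mem _ fun i _ => ?_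
    rw [← hsm]
    refine Submodule.smul_mem _ _ (Submodule.subset_span ?_)
    simp
  haveI : Module.Finite A (N ⧸ Ideal.ofList (xsA.map φ) • (⊤ : Submodule B N)) :=
    Module.Finite.of_surjective
      ((Ideal.ofList (xsA.map φ) • (⊤ : Submodule B N)).mkQ.restrictScalars A)
      (Submodule.mkQ_surjective _)
  refine isArtinian_of_tower A (isArtinian_of_torsion _ ?_)
  intro a ha x
  obtain ⟨y, rfl⟩ := Submodule.mkQ_surjective _ x
  rw [← hgenA] at ha
  have h1 : φ a ∈ Ideal.ofList (xsA.map φ) := by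
    rw [← Ideal.map_ofList]
    exact Ideal.mem_map_of_mem φ ha
  have h2 : φ a • y ∈ Ideal.ofList (xsA.map φ) • (⊤ : Submodule B N) :=
    Submodule.smul_mem_smul h1 trivial
  show (Ideal.ofList (xsA.map φ) • (⊤ : Submodule B N)).mkQ (φ a • y) = 0
  rw [Submodule.mkQ_apply, Submodule.Quotient.mk_eq_zero]
  exact h2

end Fermat.Agent.S57
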