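import Mathlib

set_option autoImplicit false

open CategoryTheory IsLocalRing RingTheory.Sequence

namespace Fermat.Agent.S57

section
variable {B : Type} [CommRing B]

/-- dévissage: finite length modules have projective dimension bounded by that of simple ones -/
theorem hasProjDimLT_of_isFiniteLength (n : ℕ)
    (hs : ∀ (L : Type) [AddCommGroup L] [Module B L], IsSimpleModule B L →
      HasProjectiveDimensionLT (ModuleCat.of B L) n)
    (L : Type) [AddCommGroup L] [Module B L] (h : IsFiniteLength B L) :
    HasProjectiveDimensionLT (ModuleCat.of B L) n := by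
  induction h with
  | of_subsingleton =>
    rename_i M _ _ _
    have hz : Limits.IsZero (ModuleCat.of B M) := ModuleCat.isZero_of_subsingleton _
    have := hz.hasProjectiveDimensionLT_zero
    exact hasProjectiveDimensionLT_of_ge _ 0 n (Nat.zero_le _)
  | of_simple_quotient _ ih =>
    rename_i M _ _ N hN _
    have hS : (ModuleCat.shortComplexOfCompEqZero N.subtype N.mkQ
        (by ext x; simp)).ShortExact := by
      apply ModuleCat.shortComplex_shortExact
      · intro x
        simp only [ModuleCat.hom_ofHom, Submodule.mkQ_apply, Submodule.Quotient.mk_eq_zero,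
          Set.mem_range, Submodule.subtype_apply, Subtype.exists, exists_prop, exists_eq_right]
      · exact N.injective_subtype
      · exact N.mkQ_surjective
    exact hS.hasProjectiveDimensionLT_X₂ n ih (hs _ hN)

end

variable {B : Type} [CommRing B] [IsLocalRing B] [IsNoetherianRing B]

/-- A finitely generated module over a "regular" local ring of dimension `n` (maximal ideal
generated by a regular sequence of length `n`) admitting a weakly regular sequence of length `n`
with finite length quotient is free. -/
theorem free_of_isWeaklyRegular (xs : List B) (hxs : IsRegular B xs)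
    (hgen : Ideal.ofList xs = maximalIdeal B)
    (N : Type) [AddCommGroup N] [Module B N] [Module.Finite B N]
    (ys : List B) (hys : IsWeaklyRegular N ys) (hmem : ∀ y ∈ ys, y ∈ maximalIdeal B)
    (hlen : ys.length = xs.length)
    (hfl : IsFiniteLength B (N ⧸ Ideal.ofList ys • (⊤ : Submodule B N))) :
    Module.Free B N := by
  rcases subsingleton_or_nontrivial N with hN | hN
  · exact Module.Free.of_subsingleton B N
  have h1 := ModuleCat.projectiveDimension_quotient_eq_add_length_of_isWeaklyRegular
    (ModuleCat.of B N) ys hys hmem
  have h2 : projectiveDimension (ModuleCat.of B (Shrink.{0} (B ⧸ Ideal.ofList xs))) = xs.length :=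
    ModuleCat.projectiveDimension_quotient_eq_length xs hxs
  have hs : ∀ (L : Type) [AddCommGroup L] [Module B L], IsSimpleModule B L →
      HasProjectiveDimensionLT (ModuleCat.of B L) (xs.length + 1) := by
    intro L _ _ hL
    obtain ⟨I, hI, ⟨e⟩⟩ := isSimpleModule_iff_quot_maximal.mp hL
    rw [IsLocalRing.eq_maximalIdeal hI, ← hgen] at e
    have e' : L ≃ₗ[B] Shrink.{0} (B ⧸ Ideal.ofList xs) := e.trans (Shrink.linearEquiv B _).symm
    have h3 : projectiveDimension (ModuleCat.of B L) = xs.length := by
      rw [projectiveDimension_eq_of_iso e'.toModuleIso, h2]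
    exact (projectiveDimension_le_iff _ _).mp h3.le
  have h4 := hasProjDimLT_of_isFiniteLength (xs.length + 1) hs _ hfl
  have h5 : projectiveDimension
      (ModuleCat.of B (N ⧸ Ideal.ofList ys • (⊤ : Submodule B N))) ≤ xs.length :=
    (projectiveDimension_le_iff _ _).mpr h4
  rw [h1, hlen] at h5
  have h6 : projectiveDimension (ModuleCat.of B N) ≤ (0 : ℕ) := by
    have : projectiveDimension (ModuleCat.of B N) + (xs.length : WithBot ℕ∞)
        ≤ ((0 : ℕ) : WithBot ℕ∞) + (xs.length : WithBot ℕ∞) := by simpa using h5
    exact (ENat.WithBot.add_le_add_natCast_right_iff).mp this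
  have h7 : HasProjectiveDimensionLE (ModuleCat.of B N) 0 := (projectiveDimension_le_iff _ _).mp h6
  have h8 : Projective (ModuleCat.of B N) := (projective_iff_hasProjectiveDimensionLE_zero _).mpr h7
  have h9 : Module.Projective B N := by
    have := (IsProjective.iff_projective (R := B) (P := N)).mpr h8
    exact this
  exact Module.free_of_flat_of_isLocalRing

end Fermat.Agent.S57
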